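import Fermat.Agent.CFT.TUnit.Basic
import Fermat.Agent.CFT.PT.Link
import Fermat.Agent.CFT.Euler.ModP
import Fermat.Agent.CFT.Coh.Quotient
import Fermat.Agent.CFT.Idele.SecondIneq
import Fermat.Agent.CFT.Idele.SUnits
import Fermat.Agent.CFT.Local.Fundamental

/-!
# The sequence of `T`-units, local units and classes modulo unit families

For a finite set `T` generating the ideles modulo units: `U_T → ⊕ CoInd K_vˣ → C K / U^T` is exact,
the last module is a class formation, and all three have finite `p`-torsion and `p`-cotorsion.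

These are `qT_iT` with `exists_iT_eq` and `qT_surjective`, `exists_fundamental_cMod` and the
`modPFinite` theorems.
-/

set_option autoImplicit false

noncomputable section

namespace Fermat.Agent.CFT.TUnit

open Fermat.Agent.Arith IntermediateField Fermat.Agent.CFT.Local Fermat.Agent.CFT.Idele
open Fermat.Agent.CFT.Duality Fermat.Agent.CFT.Euler Fermat.Agent.CFT.PT

variable (K : IntermediateField ℚ QBar) [FiniteDimensional ℚ K] [Normal ℚ K]
  (T : Finset Nat.Primes)

/-! ### The modules and maps -/

/-- The elements of `Kˣ` which are units outside `T`. -/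
def tUnits : AddSubgroup (Additive Kˣ) where
  carrier := {a | ∀ q ∉ T, ∀ σ, val (diag K a).toMul q σ ∈ unitGroup (E K q)}
  zero_mem' q _ σ := by
    rw [map_zero, show val (0 : J K).toMul q σ = 1 from val_one q σ]
    exact one_mem _
  add_mem' {a b} ha hb q hq σ := by
    rw [map_add, val_toMul_add]
    exact mul_mem (ha q hq σ) (hb q hq σ)
  neg_mem' {a} ha q hq σ := by
    rw [map_neg, show val (-diag K a).toMul q σ = (val (diag K a).toMul q σ)⁻¹ from
      map_inv (valHom q σ) _]
    exact inv_mem (ha q hq σ)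

omit [FiniteDimensional ℚ ↥K] in
theorem smul_mem_tUnits (g : K ≃ₐ[ℚ] K) {a : Additive Kˣ} (ha : a ∈ tUnits K T) :
    g • a ∈ tUnits K T := fun q hq σ => by
  rw [diag_smul, val_smul_J]; exact ha q hq _

/-- The `T`-units as a module. -/
instance tUnitsAction : DistribMulAction (K ≃ₐ[ℚ] K) (tUnits K T) where
  smul g a := ⟨g • (a : Additive Kˣ), smul_mem_tUnits K T g a.2⟩
  one_smul a := Subtype.ext (one_smul _ (a : Additive Kˣ))
  mul_smul g g' a := Subtype.ext (mul_smul g g' (a : Additive Kˣ))
  smul_zero g := Subtype.ext (smul_zero g)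
  smul_add g a b := Subtype.ext (smul_add g (a : Additive Kˣ) (b : Additive Kˣ))

omit [FiniteDimensional ℚ ↥K] in
theorem coe_smul_tUnits (g : K ≃ₐ[ℚ] K) (a : tUnits K T) :
    ((g • a : tUnits K T) : Additive Kˣ) = g • (a : Additive Kˣ) := rfl

/-- The classes of the unit families outside `T`. -/
def unitCls : AddSubgroup (C K) := (unitsOff K (T : Set Nat.Primes)).map (proj K)

omit [FiniteDimensional ℚ ↥K] in
theorem isStable_unitCls : IsStable (K ≃ₐ[ℚ] K) (unitCls K T) := by
  rintro g _ ⟨x, hx, rfl⟩
  exact ⟨g • x, smul_mem_unitsOff g hx, proj_smul K g x⟩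

/-- The idele classes modulo unit families outside `T`. -/
def CMod : Type := C K ⧸ unitCls K T

instance : AddCommGroup (CMod K T) := inferInstanceAs (AddCommGroup (C K ⧸ unitCls K T))

instance : DistribMulAction (K ≃ₐ[ℚ] K) (CMod K T) := quotAction (isStable_unitCls K T)

/-- The projection to classes modulo unit families. -/
def toCMod : C K →+ CMod K T := QuotientAddGroup.mk' (unitCls K T)

omit [FiniteDimensional ℚ ↥K] in
theorem toCMod_smul (g : K ≃ₐ[ℚ] K) (c : C K) : toCMod K T (g • c) = g • toCMod K T c := rfl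

omit [FiniteDimensional ℚ ↥K] in
/-- The projection to classes modulo unit families is surjective. -/
theorem toCMod_surjective : Function.Surjective (toCMod K T) :=
  QuotientAddGroup.mk'_surjective _

omit [FiniteDimensional ℚ ↥K] in
/-- The kernel of the projection is the classes of unit families off `T`. -/
theorem toCMod_eq_zero_iff (c : C K) :
    toCMod K T c = 0 ↔ ∃ x ∈ unitsOff K (T : Set Nat.Primes), proj K x = c :=
  (QuotientAddGroup.eq_zero_iff c).trans AddSubgroup.mem_map

/-- The `T`-units in the semilocal modules. -/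
def iT : tUnits K T →+ ∀ i : T, CoInd (decomp K i) (LocUnits K i) :=
  (valT T).comp ((diag K).comp (tUnits K T).subtype)

omit [FiniteDimensional ℚ ↥K] in
theorem iT_apply (a : tUnits K T) : iT K T a = valT T (diag K (a : Additive Kˣ)) := rfl

omit [FiniteDimensional ℚ ↥K] in
/-- The map from `T`-units is equivariant. -/
theorem iT_smul (g : K ≃ₐ[ℚ] K) (a : tUnits K T) : iT K T (g • a) = g • iT K T a := by
  rw [iT_apply, iT_apply, coe_smul_tUnits, diag_smul, valT_smul]

/-- The semilocal modules in the classes modulo unit families. -/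
def qT : (∀ i : T, CoInd (decomp K i) (LocUnits K i)) →+ CMod K T :=
  (toCMod K T).comp ((proj K).comp (toJ T))

theorem qT_apply (F : ∀ i : T, CoInd (decomp K i) (LocUnits K i)) :
    qT K T F = toCMod K T (proj K (toJ T F)) := rfl

/-- The map to classes modulo unit families is equivariant. -/
theorem qT_smul (g : K ≃ₐ[ℚ] K) (F : ∀ i : T, CoInd (decomp K i) (LocUnits K i)) :
    qT K T (g • F) = g • qT K T F := by
  rw [qT_apply, qT_apply, toJ_smul, proj_smul, toCMod_smul]

variable {K T}

/-! ### Exactness -/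

theorem sub_toJ_valT_mem {x : J K} (hx : ∀ q ∉ T, ∀ σ, val x.toMul q σ ∈ unitGroup (E K q)) :
    x - toJ T (valT T x) ∈ unitsOff K (T : Set Nat.Primes) := fun q σ => by
  rw [val_toMul_sub]
  by_cases hq : q ∈ T
  · rw [val_toJ T _ hq, valT_apply, fn_valAt, AddEquiv.symm_apply_apply, toMul_ofMul, div_self']
    exact ⟨one_mem _, fun _ => rfl⟩
  · rw [val_toJ_notMem T _ hq, div_one]
    exact ⟨hx q hq σ, fun h => absurd h hq⟩

/-- The sequence of `T`-units, local units and classes is a complex. -/
theorem qT_iT (a : tUnits K T) : qT K T (iT K T a) = 0 := by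
  rw [qT_apply, toCMod_eq_zero_iff]
  refine ⟨-(diag K (a : Additive Kˣ) - toJ T (iT K T a)),
    neg_mem (sub_toJ_valT_mem a.2), ?_⟩
  rw [map_neg, map_sub, neg_sub, sub_eq_self, proj_eq_zero_iff]
  exact ⟨(a : Additive Kˣ).toMul, rfl⟩

/-- The sequence of `T`-units, local units and classes is exact in the middle. -/
theorem exists_iT_eq {F : ∀ i : T, CoInd (decomp K i) (LocUnits K i)} (hF : qT K T F = 0) :
    ∃ a, iT K T a = F := by
  obtain ⟨w, hw, e⟩ := (toCMod_eq_zero_iff K T _).mp hF
  have e' : proj K (toJ T F - w) = 0 := by rw [map_sub, e]; exact sub_self _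
  obtain ⟨a, ha⟩ := (proj_eq_zero_iff K).mp e'
  have ha' : diag K (Additive.ofMul a) = toJ T F - w := congrArg Additive.ofMul ha
  refine ⟨⟨Additive.ofMul a, fun q hq σ => ?_⟩, ?_⟩
  · rw [ha', val_toMul_sub, val_toJ_notMem T F hq, one_div]
    exact inv_mem (hw q σ).1
  · rw [iT_apply]
    show valT T (diag K (Additive.ofMul a)) = F
    rw [ha', map_sub, valT_toJ, sub_eq_self, valT_eq_zero_iff]
    exact fun q hq σ => (hw q σ).2 (Finset.mem_coe.mpr hq)

omit [FiniteDimensional ℚ ↥K] in
/-- For nonempty `T` the `T`-units inject into the local units. -/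
theorem iT_injective (hT : T.Nonempty) : Function.Injective (iT K T) := by
  rw [injective_iff_map_eq_zero]
  intro a ha
  obtain ⟨q, hq⟩ := hT
  have h := (valT_eq_zero_iff T _).mp ha q hq 1
  have h' : ((val (prinL K (a : Additive Kˣ).toMul) q 1 : (E K q)ˣ) : E K q) = 1 :=
    (congrArg Units.val h).trans Units.val_one
  rw [val_prinL, ← map_one (localEmb (q : ℕ) K)] at h'
  exact Subtype.ext (Additive.toMul.injective (Units.ext ((localEmb (q : ℕ) K).injective h')))

/-! ### Generating sets -/

variable (K T) in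
/-- `T` generates the ideles modulo units. -/
def Generates : Prop :=
  ∀ x : J K, ∃ a : Additive Kˣ, ∀ q ∉ T, ∀ σ, val (x + diag K a).toMul q σ ∈ unitGroup (E K q)

/-- A set containing a good set generates: every idele is a unit outside `T` up to a principal
idele. -/
theorem generates_of_goodSet {p : ℕ} [Fact p.Prime] {S : Finset Nat.Primes} (hS : GoodSet p S K)
    (hST : S ⊆ T) : Generates K T := fun x => by
  obtain ⟨c, hc, hcS⟩ := hS.gen (x.toMul : PreIdele) x.toMul.2
  refine ⟨Additive.ofMul (Units.mk0 (⟨(c : QBar), hc⟩ : K) fun h => c.ne_zero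
    (congrArg Subtype.val h)), fun q hq σ => ?_⟩
  obtain ⟨g, rfl⟩ := AlgEquiv.restrictNormalHom_surjective (K₁ := K) QBar σ
  rw [mem_unitGroup, norm_val _ q (g := g) rfl]
  refine Eq.trans ?_ (hcS.2 q (fun h => hq (hST h)) g)
  refine congrArg (fun u : (Ω q)ˣ => ‖(u : Ω q)‖) ?_
  show ((x.toMul : idl K) : PreIdele) q g * prin _ q g = _
  rw [Pi.mul_apply, Pi.mul_apply]
  refine congrArg (fun d : QBarˣ => ((x.toMul : idl K) : PreIdele) q g * prin d q g) ?_
  exact Units.ext rfl

/-- If `T` generates, every class modulo unit families comes from the local units at `T`. -/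
theorem qT_surjective (hgen : Generates K T) : Function.Surjective (qT K T) := fun y => by
  obtain ⟨c, rfl⟩ := toCMod_surjective K T y
  obtain ⟨x, rfl⟩ := proj_surjective K c
  obtain ⟨a, ha⟩ := hgen x
  refine ⟨valT T (x + diag K a), ?_⟩
  rw [qT_apply, ← sub_eq_zero, ← map_sub, toCMod_eq_zero_iff]
  refine ⟨-((x + diag K a) - toJ T (valT T (x + diag K a))), neg_mem (sub_toJ_valT_mem ha), ?_⟩
  rw [map_neg, map_sub, map_add, show proj K (diag K a) = 0 from (proj_eq_zero_iff K).mpr
    ⟨a.toMul, rfl⟩, add_zero, neg_sub]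

/-! ### Finiteness and class formations -/

section ModP

variable {p : ℕ} [hp : Fact p.Prime] (hp2 : p ≠ 2)

omit [Normal ℚ ↥K] in
include hp2 in
/-- For odd `p`, the local units have finite `p`-torsion and finite quotient by `p`-th powers. -/
theorem modPFinite_locUnits (q : Nat.Primes) : ModPFinite p (LocUnits K q) := by
  refine ModPFinite.congr (LocUnits.of K q) ⟨?_, ?_⟩
  · have : NeZero p := ⟨hp.out.ne_zero⟩
    exact Finite.of_injective (fun x : (nsmulAddMonoidHom p : Additive (E K q)ˣ →+ _).ker =>
      (⟨(x : Additive (E K q)ˣ).toMul, congrArg Additive.toMul x.2⟩ : rootsOfUnity p (E K q)))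
      fun x y h => Subtype.ext (Additive.toMul.injective (congrArg Subtype.val h))
  · have e : (nsmulAddMonoidHom p : Additive (E K q)ˣ →+ _).range.index =
        (powMonoidHom p : (E K q)ˣ →* (E K q)ˣ).range.index := by
      rw [AddSubgroup.index, Subgroup.index]
      rfl
    rw [e, index_range_pow (E := E K q) (p := p) hp2]
    have : NeZero p := ⟨hp.out.ne_zero⟩
    have : Finite (powMonoidHom p : (E K q)ˣ →* (E K q)ˣ).ker :=
      Finite.of_injective (fun x : (powMonoidHom p : (E K q)ˣ →* (E K q)ˣ).ker =>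
        (⟨x.1, x.2⟩ : rootsOfUnity p (E K q))) fun x y h => Subtype.ext (congrArg Subtype.val h :)
    refine mul_ne_zero (mul_ne_zero hp.out.ne_zero Nat.card_pos.ne') ?_
    split_ifs
    · exact pow_ne_zero _ hp.out.ne_zero
    · exact one_ne_zero

/-- The `T`-units as elements of `sUnits`. -/
def toSUnits (a : tUnits K T) : sUnits T K :=
  ⟨(unitsToQ K (a : Additive Kˣ)).toMul, mem_sUnits.mpr ⟨((a : Additive Kˣ).toMul : K).2,
    fun q hq g => by
      have h := (mem_unitGroup _).1 (a.2 q hq (res K g))
      rw [norm_val _ q rfl] at h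
      exact h⟩⟩

include hp2 in
/-- For odd `p` and `ζ_p ∈ K`, the `T`-units have finite `p`-torsion and finite quotient by
`p`-th powers. -/
theorem modPFinite_tUnits {ζ : QBar} (hζ : IsPrimitiveRoot ζ p) (hζK : ζ ∈ K) :
    ModPFinite p (tUnits K T) := by
  classical
  have : NeZero p := ⟨hp.out.ne_zero⟩
  have : ∀ q, Fintype (PlaceOver q K) := fun q => Fintype.ofFinite _
  have : Finite (ModP p (sUnits T K)) := Nat.finite_of_card_ne_zero (by
    rw [card_modP_sUnits hp2 hζ hζK]; exact pow_ne_zero _ hp.out.ne_zero)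
  refine ⟨?_, ?_⟩
  · exact Finite.of_injective (fun x : (nsmulAddMonoidHom p : tUnits K T →+ _).ker =>
      (⟨(x.1 : Additive Kˣ).toMul, congrArg (fun z : tUnits K T => (z : Additive Kˣ).toMul) x.2⟩ :
        rootsOfUnity p K))
      fun x y h => Subtype.ext (Subtype.ext (Additive.toMul.injective (congrArg Subtype.val h :)))
  · let f : tUnits K T →+ ModP p (sUnits T K) := AddMonoidHom.mk' (fun a => modClass p (toSUnits a))
      fun a b => (congrArg (modClass p) (show toSUnits (a + b) = toSUnits a * toSUnits b from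
        Subtype.ext rfl)).trans (modClass_mul _ _)
    have hle : f.ker ≤ (nsmulAddMonoidHom p : tUnits K T →+ _).range := by
      intro a ha
      obtain ⟨y, hy⟩ := (modClass_eq_zero_iff _).mp ha
      have hyK := (mem_sUnits.mp y.2).1
      let b : Additive Kˣ := Additive.ofMul (Units.mk0 (⟨((y : QBarˣ) : QBar), hyK⟩ : K)
        fun h => (y : QBarˣ).ne_zero (congrArg Subtype.val h))
      have hb : b ∈ tUnits K T := fun q hq σ => by
        obtain ⟨g, rfl⟩ := AlgEquiv.restrictNormalHom_surjective (K₁ := K) QBar σ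
        rw [mem_unitGroup, norm_val _ q (g := g) rfl]
        exact (mem_sUnits.mp y.2).2 q hq g
      refine ⟨⟨b, hb⟩, Subtype.ext (unitsToQ_injective K ?_)⟩
      refine Additive.toMul.injective ?_
      rw [show (nsmulAddMonoidHom p (⟨b, hb⟩ : tUnits K T) : tUnits K T).1 = p • b from rfl,
        map_nsmul, toMul_nsmul, show (unitsToQ K b).toMul = (y : QBarˣ) from Units.ext rfl,
        ← SubmonoidClass.coe_pow, hy]
      rfl
    intro h0
    have h1 := AddSubgroup.index_dvd_of_le hle
    rw [h0, AddSubgroup.index_ker, zero_dvd_iff] at h1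
    exact Nat.card_pos.ne' h1

omit hp in
theorem modPFinite_of_exact {U P D : Type*} [AddCommGroup U] [AddCommGroup P] [AddCommGroup D]
    (i : U →+ P) (q : P →+ D) (hex : ∀ y, q y = 0 → ∃ x, i x = y) (hqi : ∀ x, q (i x) = 0)
    (hq : Function.Surjective q) (hU : ModPFinite p U) (hP : ModPFinite p P) : ModPFinite p D := by
  refine ⟨?_, hP.of_surjective q hq⟩
  have := hP.tors
  have : (nsmulAddMonoidHom p : U →+ U).range.FiniteIndex := ⟨hU.quot⟩
  have : Finite (U ⧸ (nsmulAddMonoidHom p : U →+ U).range) :=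
    AddSubgroup.finite_quotient_of_finiteIndex
  set R := (nsmulAddMonoidHom p : U →+ U).range
  have hsel : ∀ d : (nsmulAddMonoidHom p : D →+ D).ker, ∃ (y : P) (a : U),
      q y = d.1 ∧ i a = p • y := fun d => by
    obtain ⟨y, hy⟩ := hq d.1
    obtain ⟨a, ha⟩ := hex (p • y) (by rw [map_nsmul, hy]; exact d.2)
    exact ⟨y, a, hy, ha⟩
  choose y a hy ha using hsel
  -- the classes of equal obstruction differ by `q` of a `p`-torsion element
  have hrep : ∀ d d', (a d : U ⧸ R) = a d' →
      ∃ t : (nsmulAddMonoidHom p : P →+ P).ker, d.1 = d'.1 + q t.1 := fun d d' e => by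
    obtain ⟨b, hb⟩ := QuotientAddGroup.eq.mp e
    have hb' : p • b = -a d + a d' := hb
    refine ⟨⟨y d - y d' + i b, ?_⟩, ?_⟩
    · show p • (y d - y d' + i b) = 0
      rw [smul_add, smul_sub, ← ha, ← ha, ← map_nsmul, hb', map_add, map_neg]
      abel
    · rw [map_add, hqi, add_zero, map_sub, hy, hy]
      abel
  let f : (nsmulAddMonoidHom p : D →+ D).ker → U ⧸ R := fun d => (a d : U ⧸ R)
  have : ∀ z, Finite {d // f d = z} := fun z => by
    rcases isEmpty_or_nonempty {d // f d = z} with he | hne
    · infer_instance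
    obtain ⟨d', hd'⟩ := hne
    choose t ht using fun d : {d // f d = z} => hrep d.1 d' (d.2.trans hd'.symm)
    exact Finite.of_injective t fun d₁ d₂ e => Subtype.ext (Subtype.ext (by
      rw [ht d₁, ht d₂, e]))
  exact Finite.of_equiv _ (Equiv.sigmaFiberEquiv f)

include hp2 in
/-- For odd `p`, `ζ_p ∈ K` and generating `T`, classes modulo unit families have finite
`p`-torsion and finite quotient by `p`. -/
theorem modPFinite_cMod {ζ : QBar} (hζ : IsPrimitiveRoot ζ p) (hζK : ζ ∈ K)
    (hgen : Generates K T) : ModPFinite p (CMod K T) :=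
  modPFinite_of_exact (iT K T) (qT K T) (fun _ h => exists_iT_eq h) qT_iT (qT_surjective hgen)
    (modPFinite_tUnits hp2 hζ hζK)
    (ModPFinite.pi fun i : T => CoInd.modPFinite (modPFinite_locUnits hp2 (i : Nat.Primes)))

variable (K T) in
/-- The classes modulo unit families carry a class formation. -/
theorem exists_fundamental_cMod (hT : T.Nonempty) (hin : ∀ q ∉ T, inertia (E K q) = ⊥)
    {ζ : K} (hζ : IsPrimitiveRoot ζ p) {u : NormCocycle (K ≃ₐ[ℚ] K) (C K)}
    (hu : IsClassFormation p u) (hp2 : p ≠ 2) :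
    ∃ u' : NormCocycle (K ≃ₐ[ℚ] K) (CMod K T), IsClassFormation p u' := by
  have hinj : Function.Injective ((proj K).comp (unitsOff K (T : Set Nat.Primes)).subtype) := by
    rw [injective_iff_map_eq_zero]
    intro x hx
    obtain ⟨a, ha⟩ := (proj_eq_zero_iff K).mp hx
    obtain ⟨q, hq⟩ := hT
    have ha' : diag K (Additive.ofMul a) = (x : J K) := congrArg Additive.ofMul ha
    have h := (x.2 q 1).2 (Finset.mem_coe.mpr hq)
    rw [← ha'] at h
    have h' : ((val (prinL K a) q 1 : (E K q)ˣ) : E K q) = 1 :=
      (congrArg Units.val h).trans Units.val_one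
    rw [val_prinL, ← map_one (localEmb (q : ℕ) K)] at h'
    have h2 : a = 1 := Units.ext ((localEmb (q : ℕ) K).injective h')
    refine Subtype.ext ?_
    rw [← ha', h2, ofMul_one, map_zero]
    rfl
  have hin' : ∀ q : Nat.Primes, q ∉ (T : Set Nat.Primes) → inertia (E K q) = ⊥ :=
    fun q hq => hin q fun h => hq (Finset.mem_coe.mpr h)
  exact ⟨_, IsClassFormation.push ((proj K).comp (unitsOff K (T : Set Nat.Primes)).subtype)
    (toCMod K T) (fun g x => proj_smul K g (x : J K)) (toCMod_smul K T) hinj
    (fun c hc => by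
      obtain ⟨x, hx, e⟩ := (toCMod_eq_zero_iff K T c).mp hc
      exact ⟨⟨x, hx⟩, e⟩)
    (fun x => (toCMod_eq_zero_iff K T _).mpr ⟨x, x.2, rfl⟩) (toCMod_surjective K T)
    (fun H => h1Zero_unitsOff hin' H) (fun H _ => normSurj_unitsOff hin' H)
    (stepAxioms K hp2 hζ) hu⟩

variable (K) in
/-- The completions carry class formations at the decomposition groups. -/
theorem exists_fundamental_locUnits (q : Nat.Primes) :
    ∃ u : NormCocycle (decomp K q) (LocUnits K q), IsClassFormation p u := by
  classical
  obtain ⟨u, hu⟩ := Local.exists_fundamental_local (E K q) p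
  exact hu.exists_transport (decompEquiv K q) (LocUnits.of K q) fun t x =>
    (LocUnits.smul_of q t x).symm

end ModP

end Fermat.Agent.CFT.TUnit
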