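import Fermat.Agent.CFT.Duality.Units
import Fermat.Agent.CFT.Euler.CoInd

/-!
# Ideles supported at finitely many primes as coinduced modules

For a finite set of primes `T` the ideles supported at `T` are the product of the modules coinduced
from the decomposition groups of the multiplicative groups of the completions.
-/

set_option autoImplicit false

noncomputable section

namespace Fermat.Agent.CFT.TUnit

open Fermat.Agent.Arith IntermediateField Fermat.Agent.CFT.Local Fermat.Agent.CFT.Idele
open Fermat.Agent.CFT.Duality Fermat.Agent.CFT.Euler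

variable (K : IntermediateField ℚ QBar) [FiniteDimensional ℚ K] [Normal ℚ K]

/-- The decomposition group is the local Galois group. -/
def decompEquiv (q : Nat.Primes) : (E K q ≃ₐ[ℚ_[(q : ℕ)]] E K q) ≃* decomp K q :=
  MonoidHom.ofInjective (toGlobal_injective _ K)

omit [FiniteDimensional ℚ ↥K] in
theorem coe_decompEquiv (q : Nat.Primes) (t : E K q ≃ₐ[ℚ_[(q : ℕ)]] E K q) :
    (decompEquiv K q t : K ≃ₐ[ℚ] K) = toGlobal (q : ℕ) K t := rfl

/-- The multiplicative group of the completion, as a module over the decomposition group. -/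
def LocUnits (q : Nat.Primes) : Type := Additive (E K q)ˣ

instance (q : Nat.Primes) : AddCommGroup (LocUnits K q) :=
  inferInstanceAs (AddCommGroup (Additive (E K q)ˣ))

/-- The identification with the local units. -/
def LocUnits.of (q : Nat.Primes) : Additive (E K q)ˣ ≃+ LocUnits K q := AddEquiv.refl _

instance (q : Nat.Primes) : DistribMulAction (decomp K q) (LocUnits K q) :=
  DistribMulAction.compHom (Additive (E K q)ˣ) (decompEquiv K q).symm.toMonoidHom

variable {K}

omit [FiniteDimensional ℚ ↥K] in
/-- The decomposition group acts on `LocUnits` through the completion. -/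
theorem LocUnits.smul_of (q : Nat.Primes) (t : E K q ≃ₐ[ℚ_[(q : ℕ)]] E K q)
    (x : Additive (E K q)ˣ) :
    decompEquiv K q t • LocUnits.of K q x = LocUnits.of K q (t • x) := by
  show ((decompEquiv K q).symm (decompEquiv K q t)) • x = _
  rw [MulEquiv.symm_apply_apply]
  rfl

/-- The values of an idele at the conjugates of the place over `q`. -/
def valAt (q : Nat.Primes) : J K →+ CoInd (decomp K q) (LocUnits K q) :=
  AddMonoidHom.mk' (fun x => CoInd.mk
    (fun σ => LocUnits.of K q (Additive.ofMul (val x.toMul q σ))) fun h σ => by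
      obtain ⟨t, rfl⟩ := (decompEquiv K q).surjective h
      rw [LocUnits.smul_of, coe_decompEquiv, val_toGlobal_mul]
      rfl) fun x y => CoInd.ext fun σ => by
    rw [map_add CoInd.fn]
    show LocUnits.of K q (Additive.ofMul (val (x + y).toMul q σ)) = _
    rw [show val (x + y).toMul q σ = val x.toMul q σ * val y.toMul q σ from val_mul _ _ q σ]
    rfl

omit [FiniteDimensional ℚ ↥K] in
/-- The semilocal part of an idele records its values at the conjugates. -/
theorem fn_valAt (q : Nat.Primes) (x : J K) (σ : K ≃ₐ[ℚ] K) :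
    CoInd.fn (valAt q x) σ = LocUnits.of K q (Additive.ofMul (val x.toMul q σ)) := rfl

omit [FiniteDimensional ℚ ↥K] in
/-- Taking semilocal parts is equivariant. -/
theorem valAt_smul (q : Nat.Primes) (g : K ≃ₐ[ℚ] K) (x : J K) :
    valAt q (g • x) = g • valAt q x := CoInd.ext fun σ => by
  rw [fn_valAt, CoInd.fn_smul, fn_valAt, val_smul_J]

/-- The values at the primes of `T`. -/
def valT (T : Finset Nat.Primes) : J K →+ ∀ i : T, CoInd (decomp K i) (LocUnits K i) :=
  AddMonoidHom.pi fun i : T => valAt (i : Nat.Primes)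

omit [FiniteDimensional ℚ ↥K] in
theorem valT_apply (T : Finset Nat.Primes) (x : J K) (i : T) :
    valT T x i = valAt (i : Nat.Primes) x := rfl

omit [FiniteDimensional ℚ ↥K] in
theorem valT_smul (T : Finset Nat.Primes) (g : K ≃ₐ[ℚ] K) (x : J K) :
    valT T (g • x) = g • valT T x := funext fun i => valAt_smul i g x

open scoped Classical in
/-- The family of local values as an idele. -/
def glueFamily (T : Finset Nat.Primes) (F : ∀ i : T, CoInd (decomp K i) (LocUnits K i)) :
    Family K where
  toFun q σ := if hq : q ∈ T then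
    ((LocUnits.of K q).symm (CoInd.fn (F ⟨q, hq⟩) σ)).toMul else 1
  equi q t σ := by
    by_cases hq : q ∈ T
    · simp only [dif_pos hq]
      have h : CoInd.fn (F ⟨q, hq⟩) (toGlobal (q : ℕ) K t * σ) =
          decompEquiv K q t • CoInd.fn (F ⟨q, hq⟩) σ :=
        CoInd.fn_equi (F ⟨q, hq⟩) (decompEquiv K q t) σ
      rw [h, ← (LocUnits.of K q).apply_symm_apply (CoInd.fn (F ⟨q, hq⟩) σ), LocUnits.smul_of,
        AddEquiv.symm_apply_apply, AddEquiv.symm_apply_apply]
      rfl
    · simp only [dif_neg hq, smul_one]
  cofinite := ⟨T, fun q hq σ => by rw [dif_neg hq]; exact one_mem _⟩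

open scoped Classical in
/-- The idele with given values at the primes of `T`, trivial elsewhere. -/
def toJ (T : Finset Nat.Primes) : (∀ i : T, CoInd (decomp K i) (LocUnits K i)) →+ J K :=
  AddMonoidHom.mk' (fun F => Additive.ofMul (glueFamily T F).toIdl) fun F F' => J_ext fun q σ => by
    show val (glueFamily T (F + F')).toIdl q σ =
      val ((glueFamily T F).toIdl * (glueFamily T F').toIdl) q σ
    rw [val_mul, Family.val_toIdl, Family.val_toIdl, Family.val_toIdl]
    simp only [glueFamily]
    split_ifs with hq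
    · rw [Pi.add_apply, map_add CoInd.fn, Pi.add_apply, map_add, toMul_add]
    · rw [one_mul]

/-- The idele of local values has these values at `T`. -/
theorem val_toJ (T : Finset Nat.Primes) (F : ∀ i : T, CoInd (decomp K i) (LocUnits K i))
    {q : Nat.Primes} (hq : q ∈ T) (σ : K ≃ₐ[ℚ] K) :
    val (toJ T F).toMul q σ = ((LocUnits.of K q).symm (CoInd.fn (F ⟨q, hq⟩) σ)).toMul := by
  classical
  show val (glueFamily T F).toIdl q σ = _
  rw [Family.val_toIdl]
  exact dif_pos hq

/-- The idele of local values is `1` off `T`. -/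
theorem val_toJ_notMem (T : Finset Nat.Primes) (F : ∀ i : T, CoInd (decomp K i) (LocUnits K i))
    {q : Nat.Primes} (hq : q ∉ T) (σ : K ≃ₐ[ℚ] K) : val (toJ T F).toMul q σ = 1 := by
  classical
  show val (glueFamily T F).toIdl q σ = _
  rw [Family.val_toIdl]
  exact dif_neg hq

theorem toJ_mem (T : Finset Nat.Primes) (F : ∀ i : T, CoInd (decomp K i) (LocUnits K i)) :
    toJ T F ∈ supportedIn K (T : Set Nat.Primes) := fun _ hq σ => val_toJ_notMem T F hq σ

theorem valT_toJ (T : Finset Nat.Primes) (F : ∀ i : T, CoInd (decomp K i) (LocUnits K i)) :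
    valT T (toJ T F) = F := funext fun i => CoInd.ext fun σ => by
  rw [valT_apply, fn_valAt, val_toJ T F i.2]
  exact (LocUnits.of K i).apply_symm_apply _

theorem toJ_valT (T : Finset Nat.Primes) {x : J K}
    (hx : x ∈ supportedIn K (T : Set Nat.Primes)) : toJ T (valT T x) = x := J_ext fun q σ => by
  by_cases hq : q ∈ T
  · rw [val_toJ T _ hq, valT_apply, fn_valAt, AddEquiv.symm_apply_apply, toMul_ofMul]
  · rw [val_toJ_notMem T _ hq, hx q (by simpa using hq) σ]

/-- Forming the idele of local values is equivariant. -/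
theorem toJ_smul (T : Finset Nat.Primes) (g : K ≃ₐ[ℚ] K)
    (F : ∀ i : T, CoInd (decomp K i) (LocUnits K i)) : toJ T (g • F) = g • toJ T F := by
  conv_lhs => rw [← valT_toJ T F, ← valT_smul]
  exact toJ_valT T (smul_mem_supportedIn g (toJ_mem T F))

omit [FiniteDimensional ℚ ↥K] in
theorem valT_eq_zero_iff (T : Finset Nat.Primes) (x : J K) :
    valT T x = 0 ↔ ∀ q ∈ T, ∀ σ, val x.toMul q σ = 1 := by
  refine ⟨fun h q hq σ => ?_, fun h => funext fun i => CoInd.ext fun σ => ?_⟩
  · have e := congrFun (congrArg CoInd.fn (congrFun h ⟨q, hq⟩)) σ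
    rw [valT_apply, fn_valAt, Pi.zero_apply, map_zero] at e
    exact congrArg Additive.toMul ((LocUnits.of K q).injective (e.trans (map_zero _).symm))
  · rw [valT_apply, fn_valAt, h _ i.2 σ, Pi.zero_apply, map_zero]
    exact map_zero _

end Fermat.Agent.CFT.TUnit
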