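import Fermat.Agent.CFT.TUnit.Exact
import Fermat.Agent.CFT.Euler.ExtMod
import Fermat.Agent.CFT.Local.PowIndex
import Fermat.Agent.CFT.Euler.SplitCompare
import Fermat.Agent.CFT.Euler.Values

/-!
# The local count at an auxiliary prime

At a prime `q ≠ p` whose decomposition group has order prime to `p` and fixes the `p`-th roots of
unity, the group acts trivially on the two dimensional space `Kᵥˣ / p`, so the cokernel of
restriction has at most the square of the order of the invariant functionals.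
-/

set_option autoImplicit false

noncomputable section

namespace Fermat.Agent.CFT.TUnit

open Fermat.Agent.CFT.Euler

section Coprime

variable {p : ℕ} [hp : Fact p.Prime] {G : Type} [Group G] {A ι : Type}
  [AddCommGroup A] [DistribMulAction G A] [Finite A] [Fintype ι] [Fintype G]
  {ε : CFT.Lat G ι →+ A}

omit [Finite A] in
/-- An equivariant map on the relations whose values on `p • x` are divisible by `p` extends
equivariantly to the lattice. -/
private theorem mem_extSub_of_forall_exists_nsmul (hε : Presentation p ε) (H : Subgroup G)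
    [Fintype H] (hH : Nat.Coprime p (Nat.card H)) {N : Type} [AddCommGroup N]
    [DistribMulAction H N]
    (f : equivHom (C := N) (IsStable.restrict hε.isStable_ker H))
    (hdiv : ∀ x, ∃ n : N, p • n = f.1 (mulP hε.smul_mem x)) :
    f ∈ extSub (IsStable.restrict hε.isStable_ker H) := by
  classical
  -- divide by `p` on the basis
  choose w hw using fun i x => hdiv (CFT.Lat.e i x)
  let W : CFT.Lat G ι →+ N := CFT.Lat.ofBasis w
  have hW : p • W = f.1.comp (mulP hε.smul_mem) := CFT.Lat.hom_ext fun i x => by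
    rw [AddMonoidHom.smul_apply, CFT.Lat.ofBasis_e, hw]
    rfl
  -- what is missing takes values in the `p`-torsion, so it extends to the lattice
  let M := (nsmulAddMonoidHom p : N →+ N).ker
  let δ : ε.ker →+ M := (f.1 - W.comp ε.ker.subtype).codRestrict M fun s => by
    show p • (f.1 s - W s) = 0
    rw [smul_sub, show p • W (s : CFT.Lat G ι) = (p • W) s from rfl, hW, AddMonoidHom.comp_apply,
      mulP_coe, map_nsmul, sub_self]
  have hMk : ∀ m : M, p • m = 0 := fun m => Subtype.ext (by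
    rw [AddSubgroup.coe_nsmul]; exact m.2)
  obtain ⟨η, hη⟩ := exists_extend_killed hMk (T := ε.ker) (S := ⊤) le_top
    (fun s _ => hε.smul_mem s) δ (fun s hs => Subtype.ext (by
      show f.1 (mulP hε.smul_mem s) - W (p • s) = 0
      rw [map_nsmul, show p • W s = (p • W) s from rfl, hW, AddMonoidHom.comp_apply, sub_self]))
  let W' : CFT.Lat G ι →+ N := W + (M.subtype.comp η).comp
    (AddMonoidHom.mk' (fun x => (⟨x, AddSubgroup.mem_top _⟩ : (⊤ : AddSubgroup (CFT.Lat G ι))))
      fun _ _ => rfl)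
  have hW' : ∀ s : ε.ker, W' s = f.1 s := fun s => by
    show W s + (η (AddSubgroup.inclusion le_top s) : N) = f.1 s
    rw [hη]
    exact add_sub_cancel _ _
  -- with `a p + b #H = 1`, combine the norm of the extension with `f (p ·)`
  obtain ⟨a, b, hab⟩ : IsCoprime (p : ℤ) (Nat.card H : ℤ) := Nat.isCoprime_iff_coprime.mpr hH
  let N' : CFT.Lat G ι →+ N := ∑ h : H, (DistribSMul.toAddMonoidHom N h).comp
    (W'.comp (DistribSMul.toAddMonoidHom (CFT.Lat G ι) h⁻¹))
  have hN' : ∀ x, N' x = ∑ h : H, h • W' (h⁻¹ • x) := fun x => by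
    simp only [N', AddMonoidHom.finsetSum_apply]
    rfl
  refine ⟨b • N' + a • f.1.comp (mulP hε.smul_mem), fun h x => ?_, fun s => ?_⟩
  · simp only [AddMonoidHom.add_apply, AddMonoidHom.smul_apply, AddMonoidHom.comp_apply,
      smul_add, smul_comm h]
    congr 1
    · rw [hN', hN', Finset.smul_sum (r := h)]
      congr 1
      refine Fintype.sum_equiv (Equiv.mulLeft h⁻¹) _ _ fun g => ?_
      simp [smul_smul]
    · rw [← f.2]
      exact congrArg (fun z => a • f.1 z) (smulS_mulP hε.isStable_ker hε.smul_mem (h : G) x).symm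
  · have e1 : N' (s : CFT.Lat G ι) = (Nat.card H : ℤ) • f.1 s := by
      rw [hN', natCast_zsmul, Nat.card_eq_fintype_card, ← Finset.card_univ, ← Finset.sum_const]
      refine Finset.sum_congr rfl fun h _ => ?_
      rw [show h⁻¹ • (s : CFT.Lat G ι) =
          (smulS (IsStable.restrict hε.isStable_ker H) h⁻¹ s : ε.ker) from rfl, hW', f.2,
        smul_inv_smul]
    simp only [AddMonoidHom.add_apply, AddMonoidHom.smul_apply, AddMonoidHom.comp_apply, e1,
      mulP_coe, map_nsmul]
    rw [smul_smul, ← natCast_zsmul (f.1 s) p, smul_smul, ← add_smul, add_comm (b * _), hab,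
      one_smul]

/-- A bound on the cokernel of restriction over a subgroup of order prime to `p`, for a module
whose quotient by `p` is a plane with trivial action. -/
theorem index_extSub_le_sq (hε : Presentation p ε) (H : Subgroup G) [Fintype H]
    (hH : Nat.Coprime p (Nat.card H)) {N : Type} [AddCommGroup N] [DistribMulAction H N]
    (θ : N →+ ZMod p × ZMod p) (hθh : ∀ (h : H) (n : N), θ (h • n) = θ n)
    (hθker : ∀ n, θ n = 0 → ∃ m, p • m = n) :
    (extSub (M := N) (IsStable.restrict hε.isStable_ker H)).index ≤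
      Nat.card (fixDual p H A) ^ 2 := by
  classical
  set hS := IsStable.restrict hε.isStable_ker H with hSdef
  have := finite_dual (p := p) (A := A)
  -- `ν f (ε x) = θ (f (p • x))`
  have hkill : ∀ (f : equivHom (C := N) hS), ε.ker ≤ ((θ.comp f.1).comp (mulP hε.smul_mem)).ker :=
    fun f s hs => by
      show θ (f.1 (mulP hε.smul_mem s)) = 0
      rw [show mulP hε.smul_mem s = p • (⟨s, hs⟩ : ε.ker) from Subtype.ext rfl, map_nsmul,
        map_nsmul]
      refine Prod.ext ?_ ?_ <;> simp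
  let ν : equivHom (C := N) hS → A →+ ZMod p × ZMod p := fun f =>
    AddMonoidHom.liftOfSurjective ε hε.surjective ⟨_, hkill f⟩
  have hν : ∀ f x, ν f (ε x) = θ (f.1 (mulP hε.smul_mem x)) := fun f x =>
    AddMonoidHom.liftOfRightInverse_comp_apply ε _ _ ⟨_, hkill f⟩ x
  have hνh : ∀ (f : equivHom (C := N) hS) (h : H) (a : A), ν f (h • a) = ν f a := fun f h a => by
    obtain ⟨x, rfl⟩ := hε.surjective a
    rw [show h • ε x = ε ((h : G) • x) from (hε.map_smul _ x).symm, hν, hν,
      ← smulS_mulP hε.isStable_ker]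
    exact (congrArg θ (f.2 h _)).trans (hθh h _)
  -- its two components are invariant functionals, and they detect `extSub`
  let Θ : equivHom (C := N) hS →+ fixDual p H A × fixDual p H A := AddMonoidHom.mk'
    (fun f => (⟨(AddMonoidHom.fst _ _).comp (ν f), fun h a => congrArg Prod.fst (hνh f h a)⟩,
      ⟨(AddMonoidHom.snd _ _).comp (ν f), fun h a => congrArg Prod.snd (hνh f h a)⟩))
    fun f f' => by
      have e : ν (f + f') = ν f + ν f' := AddMonoidHom.ext fun a => by
        obtain ⟨x, rfl⟩ := hε.surjective a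
        rw [AddMonoidHom.add_apply, hν, hν, hν, ← map_add θ]
        rfl
      refine Prod.ext (Subtype.ext ?_) (Subtype.ext ?_) <;>
        exact (congrArg _ e).trans (AddMonoidHom.comp_add _ _ _)
  have hker : Θ.ker ≤ extSub hS := fun f hf =>
    mem_extSub_of_forall_exists_nsmul hε H hH f fun x => hθker _ (by
      rw [← hν]
      exact Prod.ext (DFunLike.congr_fun (congrArg (fun z => z.1.1) hf) (ε x))
        (DFunLike.congr_fun (congrArg (fun z => z.2.1) hf) (ε x)))
  have : Θ.ker.FiniteIndex := ⟨by rw [AddSubgroup.index_ker]; exact Nat.card_pos.ne'⟩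
  calc (extSub hS).index ≤ Θ.ker.index :=
        Nat.le_of_dvd (Nat.pos_of_ne_zero AddSubgroup.FiniteIndex.index_ne_zero)
          (AddSubgroup.index_dvd_of_le hker)
    _ = Nat.card Θ.range := AddSubgroup.index_ker Θ
    _ ≤ Nat.card (fixDual p H A × fixDual p H A) :=
        Nat.card_le_card_of_injective _ Subtype.val_injective
    _ = _ := by rw [Nat.card_prod, sq]

end Coprime

section Local

open Fermat.Agent.CFT.Local

variable {q : ℕ} [Fact q.Prime] {p : ℕ} [hp : Fact p.Prime]
  (E : IntermediateField ℚ_[q] (PadicAlgCl q)) [FiniteDimensional ℚ_[q] E] [Normal ℚ_[q] E]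

/-- `ℚ_qˣ` inside the units of an extension. -/
def botIncl : (⊥ : IntermediateField ℚ_[q] (PadicAlgCl q))ˣ →* Eˣ :=
  Units.map (IntermediateField.inclusion
    (bot_le : (⊥ : IntermediateField ℚ_[q] (PadicAlgCl q)) ≤ E)).toMonoidHom

omit [FiniteDimensional ℚ_[q] E] [Normal ℚ_[q] E] in
theorem botIncl_injective : Function.Injective (botIncl E) :=
  Units.map_injective (IntermediateField.inclusion_injective _)

omit [FiniteDimensional ℚ_[q] E] [Normal ℚ_[q] E] in
theorem smul_botIncl (g : E ≃ₐ[ℚ_[q]] E) (u : (⊥ : IntermediateField ℚ_[q] (PadicAlgCl q))ˣ) :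
    g • botIncl E u = botIncl E u := by
  obtain ⟨a, ha⟩ := IntermediateField.mem_bot.mp
    (u : (⊥ : IntermediateField ℚ_[q] (PadicAlgCl q))).2
  have h : ((botIncl E u : Eˣ) : E) = algebraMap ℚ_[q] E a := Subtype.ext ha.symm
  refine Units.ext ?_
  show g (botIncl E u : E) = botIncl E u
  rw [h, AlgEquiv.commutes]

theorem exists_botIncl_eq (x : Eˣ) (hx : ∀ g : E ≃ₐ[ℚ_[q]] E, g • x = x) :
    ∃ u, botIncl E u = x := by
  have : IsGalois ℚ_[q] E := ⟨⟩
  obtain ⟨a, ha⟩ := (IsGalois.mem_range_algebraMap_iff_fixed (F := ℚ_[q]) (x : E)).mpr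
    fun g => congrArg Units.val (hx g)
  have ha0 : algebraMap ℚ_[q] (⊥ : IntermediateField ℚ_[q] (PadicAlgCl q)) a ≠ 0 := by
    intro h0
    rw [map_eq_zero] at h0
    exact x.ne_zero (by rw [← ha, h0, map_zero])
  exact ⟨Units.mk0 _ ha0, Units.ext (Subtype.ext (congrArg Subtype.val ha))⟩

omit hp in
/-- An element of `ℚ_qˣ` which is a `p`-th power in an extension of degree prime to `p` is one
already in `ℚ_qˣ`. -/
private theorem exists_pow_eq_of_botIncl (hE : Nat.Coprime p (Nat.card (E ≃ₐ[ℚ_[q]] E)))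
    {u : (⊥ : IntermediateField ℚ_[q] (PadicAlgCl q))ˣ} {y : Eˣ} (hy : y ^ p = botIncl E u) :
    ∃ v, v ^ p = u := by
  classical
  obtain ⟨z, hz⟩ := exists_botIncl_eq E (∏ g : E ≃ₐ[ℚ_[q]] E, g • y) fun h => by
    rw [Finset.smul_prod']
    exact Fintype.prod_equiv (Equiv.mulLeft h) _ _ fun g => smul_smul h g y
  have hzu : z ^ p = u ^ Nat.card (E ≃ₐ[ℚ_[q]] E) := botIncl_injective E (by
    rw [map_pow, hz, ← Finset.prod_pow, map_pow, Nat.card_eq_fintype_card, ← Finset.card_univ,
      ← Finset.prod_const]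
    exact Finset.prod_congr rfl fun g _ => by rw [← smul_pow', hy, smul_botIncl])
  obtain ⟨a, b, hab⟩ : IsCoprime (p : ℤ) (Nat.card (E ≃ₐ[ℚ_[q]] E) : ℤ) :=
    Nat.isCoprime_iff_coprime.mpr hE
  refine ⟨u ^ a * z ^ b, ?_⟩
  rw [mul_pow, ← zpow_natCast (u ^ a), ← zpow_natCast (z ^ b), ← zpow_mul, ← zpow_mul,
    mul_comm b, zpow_mul z, zpow_natCast, hzu, ← zpow_natCast u, ← zpow_mul, ← zpow_add,
    mul_comm _ b, hab, zpow_one]

/-- A group of order `p ^ 2` killed by `p` is a plane. -/
private theorem exists_addEquiv_plane {W : Type} [AddCommGroup W] [Finite W]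
    (hW : ∀ x : W, p • x = 0) (hcard : Nat.card W = p ^ 2) :
    Nonempty (W ≃+ ZMod p × ZMod p) := by
  let : Module (ZMod p) W := AddCommGroup.zmodModule hW
  have : Module.Finite (ZMod p) W := Module.Finite.of_finite
  suffices hrk : Module.finrank (ZMod p) W = Module.finrank (ZMod p) (ZMod p × ZMod p) from
    ⟨LinearEquiv.toAddEquiv <| @LinearEquiv.ofFinrankEq (ZMod p) W (ZMod p × ZMod p)
      inferInstance _ _ (Module.Free.of_divisionRing (K := ZMod p) (V := W)) _ _ inferInstance
      inferInstance ‹Module.Finite (ZMod p) W› inferInstance hrk⟩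
  rw [Module.finrank_prod, Module.finrank_self]
  have e := @Module.natCard_eq_pow_finrank (ZMod p) W inferInstance _ _ ‹_›
  rw [Nat.card_zmod, hcard] at e
  exact (Nat.pow_right_injective hp.out.two_le e).symm

/-- The plane `Eˣ / p` has trivial action. -/
theorem exists_plane (hp2 : p ≠ 2) (hqp : q ≠ p) {ζ : E} (hζ : IsPrimitiveRoot ζ p)
    (hζfix : ∀ g : E ≃ₐ[ℚ_[q]] E, g ζ = ζ)
    (hE : Nat.Coprime p (Nat.card (E ≃ₐ[ℚ_[q]] E))) :
    ∃ θ : Additive Eˣ →+ ZMod p × ZMod p,
      (∀ (g : E ≃ₐ[ℚ_[q]] E) (x : Additive Eˣ), θ (g • x) = θ x) ∧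
      ∀ x, θ x = 0 → ∃ m, p • m = x := by
  classical
  let B := (⊥ : IntermediateField ℚ_[q] (PadicAlgCl q))
  obtain ⟨ζ₀, hζ₀⟩ := exists_botIncl_eq E (Units.mk0 ζ (hζ.ne_zero hp.out.ne_zero))
    fun g => Units.ext (hζfix g)
  have hζB : IsPrimitiveRoot (ζ₀ : B) p :=
    IsPrimitiveRoot.of_map_of_injective (f := IntermediateField.inclusion (bot_le : B ≤ E))
      (by rw [show IntermediateField.inclusion (bot_le : B ≤ E) (ζ₀ : B) = ζ from
        congrArg Units.val hζ₀]; exact hζ) (IntermediateField.inclusion_injective _)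
  have hB : (powMonoidHom p : Bˣ →* Bˣ).range.index = p ^ 2 := by
    rw [index_range_pow hp2, card_ker_pow_of_primitive hζB, if_neg hqp, mul_one, sq]
  have hI : (powMonoidHom p : Eˣ →* Eˣ).range.index = p ^ 2 := by
    rw [index_range_pow hp2, card_ker_pow_of_primitive hζ, if_neg hqp, mul_one, sq]
  let R := (powMonoidHom p : Eˣ →* Eˣ).range
  let π : Bˣ →* Eˣ ⧸ R := (QuotientGroup.mk' R).comp (botIncl E)
  -- `ℚ_qˣ / p → Eˣ / p` is injective between groups of order `p ^ 2`
  have hπ : π.ker ≤ (powMonoidHom p : Bˣ →* Bˣ).range := by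
    intro u hu
    obtain ⟨y, hy⟩ := (QuotientGroup.eq_one_iff (N := R) _).mp hu
    exact exists_pow_eq_of_botIncl E hE hy
  have : Finite (Eˣ ⧸ R) := Nat.finite_of_card_ne_zero (by
    show R.index ≠ 0
    rw [show R.index = p ^ 2 from hI]; exact pow_ne_zero _ hp.out.ne_zero)
  have hsurj : Function.Surjective π := by
    rw [← MonoidHom.range_eq_top]
    refine Subgroup.eq_top_of_le_card _ ?_
    have h1 := Subgroup.index_dvd_of_le hπ
    rw [hB, Subgroup.index_ker] at h1
    rw [show Nat.card (Eˣ ⧸ R) = p ^ 2 from hI]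
    exact Nat.le_of_dvd Nat.card_pos h1
  -- so the Galois group acts trivially on `Eˣ / p`
  have htriv : ∀ (g : E ≃ₐ[ℚ_[q]] E) (x : Eˣ),
      (QuotientGroup.mk' R) (g • x) = QuotientGroup.mk' R x := fun g x => by
    obtain ⟨u, hu⟩ := hsurj (QuotientGroup.mk' R x)
    obtain ⟨y, hy⟩ := QuotientGroup.eq.mp hu
    replace hy : y ^ p = (botIncl E u)⁻¹ * x := hy
    have hx : x = botIncl E u * y ^ p := by rw [hy, mul_inv_cancel_left]
    conv_lhs => rw [hx, smul_mul', smul_botIncl, smul_pow']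
    conv_rhs => rw [hx]
    refine QuotientGroup.eq.mpr ⟨(g • y)⁻¹ * y, ?_⟩
    show ((g • y)⁻¹ * y) ^ p = _
    rw [mul_pow, inv_pow, mul_inv_rev, mul_assoc, inv_mul_cancel_left]
  let W := Additive (Eˣ ⧸ R)
  obtain ⟨Ψ⟩ := exists_addEquiv_plane (p := p) (W := W) (fun x => by
    obtain ⟨y, hy⟩ := QuotientGroup.mk'_surjective R x.toMul
    refine Additive.toMul.injective ?_
    rw [toMul_nsmul, ← hy, ← map_pow]
    exact (QuotientGroup.eq_one_iff _).mpr ⟨y, rfl⟩) hI
  refine ⟨AddMonoidHom.mk' (fun x => Ψ (Additive.ofMul ((QuotientGroup.mk' R) x.toMul) : W))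
    fun x y => by rw [← map_add Ψ]; rfl, fun g x => congrArg (fun w => Ψ (Additive.ofMul w : W))
    (htriv g x.toMul), fun x hx => ?_⟩
  have h1 : (QuotientGroup.mk' R) x.toMul = 1 :=
    congrArg Additive.toMul (Ψ.injective (hx.trans (map_zero Ψ).symm) :)
  obtain ⟨y, hy⟩ := (QuotientGroup.eq_one_iff (N := R) _).mp h1
  exact ⟨Additive.ofMul y, congrArg Additive.ofMul hy⟩

end Local

section AtQ

open Fermat.Agent.Arith Fermat.Agent.CFT.Local Fermat.Agent.CFT.Idele
open Fermat.Agent.CFT.Duality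

variable {K : IntermediateField ℚ QBar} [FiniteDimensional ℚ K] [Normal ℚ K]
  {p : ℕ} [hp : Fact p.Prime] {A ι : Type} [AddCommGroup A] [DistribMulAction (K ≃ₐ[ℚ] K) A]
  [Finite A] [Fintype ι] {ε : CFT.Lat (K ≃ₐ[ℚ] K) ι →+ A}

/-- The local count at an auxiliary prime. -/
theorem index_extSub_locUnits_le (hp2 : p ≠ 2) (hε : Presentation p ε) (q : Nat.Primes)
    (hqp : (q : ℕ) ≠ p) [Fintype (decomp K q)] (hH : Nat.Coprime p (Nat.card (decomp K q)))
    {ζ : K} (hζ : IsPrimitiveRoot ζ p) (hfix : ∀ g ∈ decomp K q, g ζ = ζ) :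
    (extSub (M := LocUnits K q) (IsStable.restrict hε.isStable_ker (decomp K q))).index ≤
      Nat.card (fixDual p (decomp K q) A) ^ 2 := by
  obtain ⟨θ, hθ, hker⟩ := exists_plane (E K q) hp2 hqp (ζ := localEmb (q : ℕ) K ζ)
    (IsPrimitiveRoot.map_of_injective hζ (localEmb (q : ℕ) K).injective)
    (fun g => by
      have e := localEmb_toGlobal (q : ℕ) K g ζ
      rw [hfix _ ⟨g, rfl⟩] at e
      exact e.symm)
    (by rwa [Nat.card_congr (decompEquiv K q).toEquiv])
  refine index_extSub_le_sq hε _ hH (θ.comp (LocUnits.of K q).symm.toAddMonoidHom) (fun h n => ?_)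
    fun n hn => ?_
  · obtain ⟨g, rfl⟩ := (decompEquiv K q).surjective h
    obtain ⟨x, rfl⟩ := (LocUnits.of K q).surjective n
    rw [LocUnits.smul_of]
    simp only [AddMonoidHom.comp_apply, AddEquiv.coe_toAddMonoidHom, AddEquiv.symm_apply_apply, hθ]
  · obtain ⟨m, hm⟩ := hker _ hn
    exact ⟨LocUnits.of K q m, by rw [← map_nsmul, hm]; exact (LocUnits.of K q).apply_symm_apply n⟩

end AtQ

end Fermat.Agent.CFT.TUnit
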