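import Mathlib.NumberTheory.NumberField.Units.DirichletTheorem
import Mathlib.Tactic

/-!
# A unit whose conjugates have only the norm relation

For a Galois number field with a complex conjugation `c ≠ 1`, some unit of norm one has logarithms
`a(g) = log |φ (g ε)|` whose only `ℤ`-relations among translates are the constants on `G / c`.
-/

set_option autoImplicit false

noncomputable section

namespace Fermat.Agent.CFT.TUnit

open NumberField NumberField.ComplexEmbedding

variable {K : Type*} [Field K] [NumberField K] [IsGalois ℚ K]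

omit [IsGalois ℚ K] in
/-- A complex conjugation has square `1`. -/
theorem conj_mul_self {φ : K →+* ℂ} {c : K ≃ₐ[ℚ] K} (hc : IsConj φ c) : c * c = 1 :=
  AlgEquiv.ext fun x => by rw [AlgEquiv.mul_apply, isConj_apply_apply hc, AlgEquiv.one_apply]

/-- A unit of norm one with no relations among the logarithms of its conjugates except the
constants. -/
theorem exists_minkowski (φ : K →+* ℂ) (c : K ≃ₐ[ℚ] K) (hc : IsConj φ c) (hc1 : c ≠ 1) :
    ∃ ε : (𝓞 K)ˣ, (∏ g : K ≃ₐ[ℚ] K, g ((ε : 𝓞 K) : K)) = 1 ∧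
      ∀ F : (K ≃ₐ[ℚ] K) → ℤ, (∀ g, F (c * g) = F g) →
        (∀ h : K ≃ₐ[ℚ] K,
          ∑ g : K ≃ₐ[ℚ] K, (F g⁻¹ : ℝ) * Real.log ‖φ (h (g ((ε : 𝓞 K) : K)))‖ = 0) →
        ∀ g, F g = F 1 := by
  classical
  -- By Dirichlet some unit has negative logarithm at all other places; square it to get norm `1`.
  obtain ⟨u, hu⟩ := Units.dirichletUnitTheorem.exists_unit K (InfinitePlace.mk φ)
  have hval : (((u ^ 2 : (𝓞 K)ˣ) : 𝓞 K) : K) = ((u : 𝓞 K) : K) ^ 2 := by push_cast; ring
  have hN : (∏ g : K ≃ₐ[ℚ] K, g (((u ^ 2 : (𝓞 K)ˣ) : 𝓞 K) : K)) = 1 := by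
    rw [hval, ← Algebra.norm_eq_prod_automorphisms, map_pow, ← sq_abs, Units.norm, one_pow, map_one]
  refine ⟨u ^ 2, hN, fun F hF hrel => ?_⟩
  set x : K := (((u ^ 2 : (𝓞 K)ˣ) : 𝓞 K) : K)
  let a : (K ≃ₐ[ℚ] K) → ℝ := fun j => Real.log ‖φ (j x)‖
  have hx0 : ∀ j : K ≃ₐ[ℚ] K, ‖φ (j x)‖ ≠ 0 := fun j => by
    rw [ne_eq, norm_eq_zero, map_eq_zero, map_eq_zero]
    exact Units.coe_ne_zero (u ^ 2)
  have hsum : ∑ j : K ≃ₐ[ℚ] K, a j = 0 := by
    rw [← Real.log_prod fun j _ => hx0 j, ← norm_prod, ← map_prod, hN, map_one, norm_one,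
      Real.log_one]
  have hneg : ∀ j : K ≃ₐ[ℚ] K, j ≠ 1 → j ≠ c → a j < 0 := by
    intro j hj1 hjc
    have hw : InfinitePlace.mk (φ.comp (j : K →+* K)) ≠ InfinitePlace.mk φ := by
      intro h
      rcases InfinitePlace.mk_eq_iff.mp h with h | h
      · exact hj1 (AlgEquiv.ext fun y => φ.injective (RingHom.congr_fun h y))
      · refine hjc (IsConj.ext (φ := φ) ?_ hc)
        refine RingHom.ext fun y => ?_
        have e := RingHom.congr_fun h y
        simp only [conjugate_coe_eq, RingHom.coe_comp, Function.comp_apply] at e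
        simp only [conjugate_coe_eq, RingHom.coe_comp, Function.comp_apply]
        rw [← e, Complex.conj_conj]
    have h := hu _ hw
    rw [InfinitePlace.apply] at h
    show Real.log ‖φ (j x)‖ < 0
    rw [show x = ((u : 𝓞 K) : K) ^ 2 from hval, map_pow, map_pow, norm_pow, Real.log_pow]
    exact mul_neg_of_pos_of_neg (by norm_num) h
  -- At an `h` maximising `F` all terms of the relation are nonnegative, so vanish: `F` is constant.
  obtain ⟨h, -, hmax⟩ := Finset.exists_max_image Finset.univ F ⟨1, Finset.mem_univ _⟩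
  have hcc := conj_mul_self hc
  have hzero : ∀ j ∈ (Finset.univ : Finset (K ≃ₐ[ℚ] K)),
      ((F (j⁻¹ * h) : ℝ) - F h) * a j = 0 := by
    refine (Finset.sum_eq_zero_iff_of_nonneg fun j _ => ?_).mp ?_
    · rcases eq_or_ne j 1 with rfl | hj1
      · simp
      rcases eq_or_ne j c with rfl | hjc
      · rw [inv_eq_of_mul_eq_one_right hcc, hF, sub_self, zero_mul]
      · refine mul_nonneg_of_nonpos_of_nonpos ?_ (hneg j hj1 hjc).le
        have := hmax (j⁻¹ * h) (Finset.mem_univ _)
        exact sub_nonpos.mpr (Int.cast_le.mpr this)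
    · simp only [sub_mul, Finset.sum_sub_distrib, ← Finset.mul_sum, hsum, mul_zero, sub_zero]
      refine Eq.trans ?_ (hrel h)
      refine Fintype.sum_equiv (Equiv.mulLeft h⁻¹) _ _ fun j => ?_
      simp only [Equiv.coe_mulLeft, a, mul_inv_rev, inv_inv, ← AlgEquiv.mul_apply,
        mul_inv_cancel_left]
  have key : ∀ j, F (j⁻¹ * h) = F h := by
    intro j
    rcases eq_or_ne j 1 with rfl | hj1
    · simp
    rcases eq_or_ne j c with rfl | hjc
    · rw [inv_eq_of_mul_eq_one_right hcc, hF]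
    · have := (mul_eq_zero.mp (hzero j (Finset.mem_univ _))).resolve_right (hneg j hj1 hjc).ne
      exact_mod_cast sub_eq_zero.mp this
  intro g
  have e1 := key (h * g⁻¹)
  have e2 := key h
  rw [mul_inv_rev, inv_inv, mul_assoc, inv_mul_cancel, mul_one] at e1
  rw [inv_mul_cancel] at e2
  rw [e1, e2]

end Fermat.Agent.CFT.TUnit
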