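import Fermat.Agent.CFT.TUnit.Exact
import Fermat.Agent.CFT.TUnit.Minkowski
import Fermat.Agent.CFT.Euler.UnitChar
import Fermat.Agent.CFT.Idele.ClassFinite

/-!
# The character of the `T`-units

The orders at `T` have finite coindex and their kernel contains, with finite index, the module
generated by a Minkowski unit, which is `ℤ[G/c]` modulo the constants.

The conclusion is `exists_conj_unitChar`.
-/

set_option autoImplicit false

noncomputable section

namespace Fermat.Agent.CFT.TUnit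

open Fermat.Agent.Arith IntermediateField Fermat.Agent.CFT.Local Fermat.Agent.CFT.Idele
open Fermat.Agent.CFT.Duality Fermat.Agent.CFT.Euler
open scoped NumberField

variable {K : IntermediateField ℚ QBar} [FiniteDimensional ℚ K] [Normal ℚ K]

/-! ### Orders at `T` -/

/-- The order at the distinguished place, on the module of local units. -/
def ordLoc (q : Nat.Primes) : LocUnits K q →+ TrivZ (decomp K q) :=
  AddMonoidHom.mk' (fun x => TrivZ.of (Multiplicative.toAdd
    (ord (E K q) ((LocUnits.of K q).symm x).toMul))) fun x y => by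
    rw [← map_add, map_add (LocUnits.of K q).symm, toMul_add, map_mul, toAdd_mul]

theorem ordLoc_of (q : Nat.Primes) (y : Additive (E K q)ˣ) :
    ordLoc q (LocUnits.of K q y) = TrivZ.of (Multiplicative.toAdd (ord (E K q) y.toMul)) := by
  show TrivZ.of _ = _
  rw [AddEquiv.symm_apply_apply]

theorem ordLoc_smul (q : Nat.Primes) (h : decomp K q) (x : LocUnits K q) :
    ordLoc q (h • x) = h • ordLoc q x := by
  obtain ⟨t, rfl⟩ := (decompEquiv K q).surjective h
  obtain ⟨y, rfl⟩ := (LocUnits.of K q).surjective x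
  rw [LocUnits.smul_of, ordLoc_of, ordLoc_of, TrivZ.smul_eq]
  exact congrArg (fun z => TrivZ.of (Multiplicative.toAdd z)) (ord_smul_unit t y.toMul)

theorem ordLoc_surjective (q : Nat.Primes) : Function.Surjective (ordLoc (K := K) q) := fun n => by
  obtain ⟨x, hx⟩ := ord_surjective (E K q) (Multiplicative.ofAdd (TrivZ.of.symm n))
  refine ⟨LocUnits.of K q (Additive.ofMul x), ?_⟩
  rw [ordLoc_of, toMul_ofMul, hx, toAdd_ofAdd, AddEquiv.apply_symm_apply]

/-- The order at `q` vanishes exactly on units. -/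
theorem ordLoc_eq_zero_iff (q : Nat.Primes) (y : Additive (E K q)ˣ) :
    ordLoc q (LocUnits.of K q y) = 0 ↔ y.toMul ∈ unitGroup (E K q) := by
  rw [ordLoc_of, map_eq_zero_iff _ TrivZ.of.injective, toAdd_eq_zero, ord_eq_one_iff]

/-- The orders in all the conjugates at the primes of `T`. -/
def ordPi (T : Finset Nat.Primes) : (∀ i : T, CoInd (decomp K i) (LocUnits K i)) →+
    ∀ i : T, CoInd (decomp K i) (TrivZ (decomp K i)) :=
  AddMonoidHom.mk' (fun F i => CoInd.map (ordLoc (i : Nat.Primes)) (ordLoc_smul _) (F i))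
    fun _F _F' => funext fun i => map_add (CoInd.map (ordLoc (i : Nat.Primes)) (ordLoc_smul _)) _ _

/-- The orders of a `T`-unit. -/
def ordT (T : Finset Nat.Primes) :
    tUnits K T →+ ∀ i : T, CoInd (decomp K i) (TrivZ (decomp K i)) :=
  (ordPi T).comp (iT K T)

theorem ordT_smul (T : Finset Nat.Primes) (g : K ≃ₐ[ℚ] K) (a : tUnits K T) :
    ordT T (g • a) = g • ordT T a := funext fun i => by
  show CoInd.map (ordLoc (i : Nat.Primes)) (ordLoc_smul _) (iT K T (g • a) i) = _
  rw [iT_smul]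
  exact CoInd.map_smul _ _ g _

theorem ordPi_valT_eq_zero_iff (T : Finset Nat.Primes) (x : J K) :
    ordPi T (valT T x) = 0 ↔ ∀ q ∈ T, ∀ σ, val x.toMul q σ ∈ unitGroup (E K q) := by
  refine ⟨fun h q hq σ => ?_, fun h => funext fun i => CoInd.ext fun σ => ?_⟩
  · have e : ordLoc q (LocUnits.of K q (Additive.ofMul (val x.toMul q σ))) = 0 := by
      have e1 := congrFun (congrArg CoInd.fn (congrFun h ⟨q, hq⟩)) σ
      rw [Pi.zero_apply, map_zero] at e1
      exact e1
    exact (ordLoc_eq_zero_iff q _).mp e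
  · rw [Pi.zero_apply, map_zero]
    exact (ordLoc_eq_zero_iff _ _).mpr (h _ i.2 σ)

theorem ordT_eq_zero_iff (T : Finset Nat.Primes) (a : tUnits K T) :
    ordT T a = 0 ↔ ∀ q σ, val (diag K (a : Additive Kˣ)).toMul q σ ∈ unitGroup (E K q) := by
  rw [ordT, AddMonoidHom.comp_apply, iT_apply, ordPi_valT_eq_zero_iff]
  exact ⟨fun h q σ => (em (q ∈ T)).elim (fun hq => h q hq σ) fun hq => a.2 q hq σ,
    fun h q _ σ => h q σ⟩

theorem index_ordT_range (T : Finset Nat.Primes) : (ordT (K := K) T).range.index ≠ 0 := by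
  classical
  have := finite_classes_mod_units (L := K)
  set V := unitIdl K ⊔ (prinL K).range
  set h := Nat.card (idl K ⧸ V) with hh
  have hh0 : h ≠ 0 := Nat.card_pos.ne'
  let P := ∀ i : T, CoInd (decomp K i) (TrivZ (decomp K i))
  -- `h` times anything is in the range: lift it to an idele, killed by `h` up to units.
  have hle : (nsmulAddMonoidHom h : P →+ P).range ≤ (ordT (K := K) T).range := by
    rintro _ ⟨Y, rfl⟩
    choose F hF using fun i : T => CoInd.map_surjective (ordLoc (i : Nat.Primes)) (ordLoc_smul _)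
      (ordLoc_surjective _) (Y i)
    have hFY : ordPi T F = Y := funext hF
    set x := toJ T F
    have hmem : x.toMul ^ h ∈ V := by
      rw [← QuotientGroup.eq_one_iff, QuotientGroup.mk_pow, hh]
      exact pow_card_eq_one'
    obtain ⟨u, hu, _, ⟨a, rfl⟩, hua⟩ := Subgroup.mem_sup.mp hmem
    have hxa : h • x = Additive.ofMul u + diag K (Additive.ofMul a) :=
      Additive.toMul.injective hua.symm
    have hau : ∀ q σ, q ∉ T → val (diag K (Additive.ofMul a)).toMul q σ ∈ unitGroup (E K q) := by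
      intro q σ hq
      have e := congrArg (fun z : J K => val z.toMul q σ) hxa
      simp only [val_toMul_add] at e
      have e1 : val (h • x).toMul q σ = 1 := by
        show valHom q σ (x.toMul ^ h) = 1
        rw [map_pow, show valHom q σ x.toMul = 1 from val_toJ_notMem T F hq σ, one_pow]
      rw [e1] at e
      exact (Subgroup.mul_mem_cancel_left _ (hu q σ)).mp (e ▸ one_mem _)
    refine ⟨⟨Additive.ofMul a, fun q hq σ => hau q σ hq⟩, ?_⟩
    rw [ordT, AddMonoidHom.comp_apply, iT_apply]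
    show ordPi T (valT T (diag K (Additive.ofMul a))) = h • Y
    rw [← hFY, ← map_nsmul, ← sub_eq_zero, ← map_sub, ← valT_toJ T (h • F), map_nsmul, hxa,
      ← map_sub, ordPi_valT_eq_zero_iff]
    intro q _ σ
    rw [sub_add_cancel_right, show (-Additive.ofMul u).toMul = u⁻¹ from rfl,
      show val u⁻¹ q σ = (val u q σ)⁻¹ from map_inv (valHom q σ) u]
    exact inv_mem (hu q σ)
  have : ∀ i : T, Module.Finite ℤ (CoInd (decomp K i) (TrivZ (decomp K i))) := fun i =>
    Module.Finite.equiv (AddEquiv.toIntLinearEquiv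
      ((AddEquiv.piCongrRight fun _ => TrivZ.of).trans CoInd.coords.symm :
        ((K ≃ₐ[ℚ] K) ⧸ decomp K (i : Nat.Primes) → ℤ) ≃+ _))
  have : Module.Finite ℤ P := inferInstance
  let R : Submodule ℤ P := AddSubgroup.toIntSubmodule (nsmulAddMonoidHom h : P →+ P).range
  -- So the range contains `h • P`, of finite index.
  have : Finite (P ⧸ R) := Module.finite_of_fg_torsion _ fun {v} => by
    obtain ⟨y, rfl⟩ := Submodule.Quotient.mk_surjective R v
    refine ⟨⟨(h : ℤ), mem_nonZeroDivisors_of_ne_zero (Int.natCast_ne_zero.mpr hh0)⟩, ?_⟩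
    show (h : ℤ) • Submodule.Quotient.mk y = (0 : P ⧸ R)
    rw [← Submodule.Quotient.mk_smul, Submodule.Quotient.mk_eq_zero]
    exact ⟨y, (natCast_zsmul y h).symm⟩
  intro h0
  have h1 := AddSubgroup.index_dvd_of_le hle
  rw [h0, zero_dvd_iff] at h1
  exact (Nat.card_pos (α := P ⧸ R)).ne' h1

/-! ### Units and their conjugates -/

/-- The units of `𝓞 K` inside `Kˣ`. -/
def unitsK : Additive (𝓞 K)ˣ →+ Additive Kˣ :=
  MonoidHom.toAdditive (Units.map (algebraMap (𝓞 K) K).toMonoidHom)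

omit [FiniteDimensional ℚ ↥K] [Normal ℚ ↥K] in
theorem unitsToQ_unitsK (u : (𝓞 K)ˣ) :
    (PT.unitsToQ K (unitsK (Additive.ofMul u))).toMul = intUnits K u := Units.ext rfl

omit [FiniteDimensional ℚ ↥K] [Normal ℚ ↥K] in
theorem unitsK_injective : Function.Injective (unitsK (K := K)) := fun _ _ h =>
  Additive.toMul.injective (Units.ext (NumberField.RingOfIntegers.coe_injective (congrArg Units.val
    (congrArg Additive.toMul h) :)))

theorem mem_units_iff (x : Additive Kˣ) :
    (∀ q σ, val (diag K x).toMul q σ ∈ unitGroup (E K q)) ↔ x ∈ (unitsK (K := K)).range := by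
  constructor
  · intro h
    have hx : (PT.unitsToQ K x).toMul ∈ sUnits ∅ K := mem_sUnits.mpr ⟨(x.toMul : K).2,
      fun q _ g => by
        have h' := (mem_unitGroup _).1 (h q (res K g))
        rw [norm_val _ q rfl] at h'
        exact h'⟩
    obtain ⟨u, hu⟩ := exists_intUnits_eq hx
    refine ⟨Additive.ofMul u, PT.unitsToQ_injective K (Additive.toMul.injective ?_)⟩
    rw [unitsToQ_unitsK, hu]
  · rintro ⟨u, rfl⟩ q σ
    obtain ⟨g, rfl⟩ := AlgEquiv.restrictNormalHom_surjective (K₁ := K) QBar σ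
    rw [mem_unitGroup, norm_val _ q (g := g) rfl]
    exact (mem_sUnits.mp (intUnits_mem u.toMul)).2 q (by simp) g

/-- The conjugate of a unit. -/
def conjUnit (g : K ≃ₐ[ℚ] K) : Additive (𝓞 K)ˣ →+ Additive (𝓞 K)ˣ :=
  MonoidHom.toAdditive
    (Units.map (NumberField.RingOfIntegers.mapRingEquiv (g : K ≃+* K)).toMonoidHom)

omit [FiniteDimensional ℚ ↥K] [Normal ℚ ↥K] in
theorem unitsK_conjUnit (g : K ≃ₐ[ℚ] K) (u : Additive (𝓞 K)ˣ) :
    unitsK (conjUnit g u) = g • unitsK u := Additive.toMul.injective (Units.ext rfl)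

/-- `F ↦ ∑ F (g⁻¹) • g u`: the map from the regular lattice of `G / C` to the units. -/
private def conjSum (C : Subgroup (K ≃ₐ[ℚ] K)) (u : Additive (𝓞 K)ˣ) :
    CoInd C (TrivZ C) →+ Additive (𝓞 K)ˣ :=
  AddMonoidHom.mk'
    (fun F => ∑ g : K ≃ₐ[ℚ] K, TrivZ.of.symm (CoInd.fn F g⁻¹) • conjUnit g u) fun F F' => by
      rw [← Finset.sum_add_distrib]
      refine Finset.sum_congr rfl fun g _ => ?_
      rw [map_add CoInd.fn, Pi.add_apply, map_add]
      exact add_zsmul _ _ _

omit [Normal ℚ ↥K] in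
/-- `conjSum` computed in `Kˣ`. -/
private theorem unitsK_conjSum (C : Subgroup (K ≃ₐ[ℚ] K)) (u : Additive (𝓞 K)ˣ)
    (F : CoInd C (TrivZ C)) : unitsK (conjSum C u F) =
      ∑ g : K ≃ₐ[ℚ] K, TrivZ.of.symm (CoInd.fn F g⁻¹) • (g • unitsK u) := by
  show unitsK (∑ g : K ≃ₐ[ℚ] K, TrivZ.of.symm (CoInd.fn F g⁻¹) • conjUnit g u) = _
  rw [map_sum]
  simp only [map_zsmul, unitsK_conjUnit]

omit [Normal ℚ ↥K] in
/-- `conjSum` commutes with the Galois action. -/
private theorem conjSum_smul (C : Subgroup (K ≃ₐ[ℚ] K)) (u : Additive (𝓞 K)ˣ) (g : K ≃ₐ[ℚ] K)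
    (F : CoInd C (TrivZ C)) : unitsK (conjSum C u (g • F)) = g • unitsK (conjSum C u F) := by
  rw [unitsK_conjSum, unitsK_conjSum, Finset.smul_sum]
  refine (Fintype.sum_equiv (Equiv.mulLeft g) _ _ fun j => ?_).symm
  simp only [Equiv.coe_mulLeft, CoInd.fn_smul, mul_inv_rev, inv_mul_cancel_right, smul_comm g,
    smul_smul]

omit [Normal ℚ ↥K] in
/-- A unit of norm one sends the constants to zero. -/
private theorem conjSum_constCoInd (C : Subgroup (K ≃ₐ[ℚ] K)) {ε : (𝓞 K)ˣ}
    (hεN : (∏ g : K ≃ₐ[ℚ] K, g ((ε : 𝓞 K) : K)) = 1) (n : TrivZ (K ≃ₐ[ℚ] K)) :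
    conjSum C (Additive.ofMul ε) (constCoInd C n) = 0 := by
  apply unitsK_injective
  rw [unitsK_conjSum, map_zero]
  simp only [fn_constCoInd, AddEquiv.symm_apply_apply]
  have h0 : ∑ g : K ≃ₐ[ℚ] K, g • unitsK (Additive.ofMul ε) = 0 :=
    Additive.toMul.injective (Units.ext (by
      rw [toMul_sum, Units.coe_prod, toMul_zero, Units.val_one]
      exact hεN))
  refine (map_sum (zsmulAddGroupHom (TrivZ.of.symm n))
    (fun g : K ≃ₐ[ℚ] K => g • unitsK (Additive.ofMul ε)) _).symm.trans ?_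
  rw [h0, map_zero]

omit [Normal ℚ ↥K] in
/-- If the logarithms of the conjugates of `ε` have only constant relations, then only constants
are sent to zero. -/
private theorem mem_constCoInd_of_conjSum_eq_zero (φ : K →+* ℂ) {c : K ≃ₐ[ℚ] K} {ε : (𝓞 K)ˣ}
    (hεrel : ∀ F : (K ≃ₐ[ℚ] K) → ℤ, (∀ g, F (c * g) = F g) →
      (∀ h : K ≃ₐ[ℚ] K,
        ∑ g : K ≃ₐ[ℚ] K, (F g⁻¹ : ℝ) * Real.log ‖φ (h (g ((ε : 𝓞 K) : K)))‖ = 0) →
      ∀ g, F g = F 1)
    {F : CoInd (Subgroup.zpowers c) (TrivZ (Subgroup.zpowers c))}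
    (hF : conjSum (Subgroup.zpowers c) (Additive.ofMul ε) F = 0) :
    F ∈ (constCoInd (Subgroup.zpowers c)).range := by
  let lg : (K ≃ₐ[ℚ] K) → Additive Kˣ →+ ℝ := fun h => AddMonoidHom.mk'
    (fun y => Real.log ‖φ (h ((y.toMul : Kˣ) : K))‖) fun y y' => by
      rw [toMul_add, Units.val_mul, map_mul, map_mul, norm_mul, Real.log_mul] <;>
        exact fun h0 => Units.ne_zero _
          ((map_eq_zero _).mp ((map_eq_zero _).mp (norm_eq_zero.mp h0)))
  refine ⟨TrivZ.of (TrivZ.of.symm (CoInd.fn F 1)), CoInd.ext fun x => ?_⟩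
  rw [fn_constCoInd, AddEquiv.symm_apply_apply]
  refine (TrivZ.of (G := Subgroup.zpowers c)).symm.injective ?_
  rw [AddEquiv.symm_apply_apply]
  refine (hεrel (fun g => TrivZ.of.symm (CoInd.fn F g)) (fun g => ?_) (fun h => ?_) x).symm
  · have := CoInd.fn_equi F ⟨c, Subgroup.mem_zpowers c⟩ g
    rw [TrivZ.smul_eq] at this
    show TrivZ.of.symm (CoInd.fn F (c * g)) = TrivZ.of.symm (CoInd.fn F g)
    rw [this]
  · have h1 := congrArg (fun y => lg h (unitsK y)) hF
    simp only [unitsK_conjSum, map_zero, map_sum, map_zsmul] at h1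
    refine Eq.trans (Finset.sum_congr rfl fun g _ => ?_) h1
    rw [zsmul_eq_mul]
    rfl

omit [Normal ℚ ↥K] in
/-- On a totally complex field, if exactly the constants are sent to zero and `C` has order two,
the image has full rank in the units. -/
private theorem index_range_conjSum_ne_zero [NumberField K] [IsGalois ℚ K]
    {C : Subgroup (K ≃ₐ[ℚ] K)} {u : Additive (𝓞 K)ˣ}
    (hr0 : NumberField.InfinitePlace.nrRealPlaces K = 0) (hcard : Nat.card C = 2)
    (hker : ∀ F, conjSum C u F = 0 ↔ F ∈ (constCoInd C).range) :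
    (conjSum C u).range.index ≠ 0 := by
  let L₀ : CoInd C (TrivZ C) →ₗ[ℤ] Additive (𝓞 K)ˣ := (conjSum C u).toIntLinearMap
  let ec : CoInd C (TrivZ C) ≃ₗ[ℤ] ((K ≃ₐ[ℚ] K) ⧸ C → ℤ) := AddEquiv.toIntLinearEquiv
    (CoInd.coords.trans (AddEquiv.piCongrRight fun _ => TrivZ.of.symm))
  have : Module.Finite ℤ (CoInd C (TrivZ C)) := Module.Finite.equiv ec.symm
  have : Module.Finite ℤ (Additive (𝓞 K)ˣ) := inferInstance
  have hrk : Module.finrank ℤ (LinearMap.range L₀) = NumberField.Units.rank K := by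
    have h1 := (LinearMap.ker L₀).finrank_quotient_add_finrank
    rw [L₀.quotKerEquivRange.finrank_eq] at h1
    have hk : LinearMap.ker L₀ = LinearMap.range (constCoInd C).toIntLinearMap := by
      ext F
      exact hker F
    have h2 : Module.finrank ℤ (LinearMap.ker L₀) = 1 := by
      rw [hk, LinearMap.finrank_range_of_inj (constCoInd_injective C),
        ← (AddEquiv.toIntLinearEquiv (TrivZ.of (G := K ≃ₐ[ℚ] K))).finrank_eq, Module.finrank_self]
    have h3 : Module.finrank ℤ (CoInd C (TrivZ C)) = C.index := by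
      let : Fintype ((K ≃ₐ[ℚ] K) ⧸ C) := Fintype.ofFinite _
      rw [ec.finrank_eq, Module.finrank_pi, Subgroup.index, Nat.card_eq_fintype_card]
    have h4 := C.card_mul_index
    rw [hcard, IsGalois.card_aut_eq_finrank] at h4
    have hn := NumberField.InfinitePlace.card_add_two_mul_card_eq_rank K
    have hp' := NumberField.InfinitePlace.card_eq_nrRealPlaces_add_nrComplexPlaces K
    rw [NumberField.Units.rank]
    omega
  let R : Submodule ℤ (Additive (𝓞 K)ˣ) := LinearMap.range L₀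
  have h1 := R.finrank_quotient_add_finrank
  rw [hrk, NumberField.Units.finrank_eq] at h1
  have h0 : Module.finrank ℤ (Additive (𝓞 K)ˣ ⧸ R) = 0 := by omega
  have : Finite (Additive (𝓞 K)ˣ ⧸ R) :=
    Module.finite_of_fg_torsion _ (Module.finrank_eq_zero_iff_isTorsion.mp h0)
  intro hz
  exact (Nat.card_pos (α := Additive (𝓞 K)ˣ ⧸ R)).ne' hz

/-- A subgroup of finite index in the units has finite index in the kernel of the orders. -/
private theorem relIndex_ker_ordT_ne_zero (T : Finset Nat.Primes) {R : AddSubgroup (tUnits K T)}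
    {S : AddSubgroup (Additive (𝓞 K)ˣ)} (hR : R.map (tUnits K T).subtype = S.map (unitsK (K := K)))
    (hS : S.index ≠ 0) : R.relIndex (ordT T).ker ≠ 0 := by
  have e2 : (ordT T).ker.map (tUnits K T).subtype =
      (⊤ : AddSubgroup (Additive (𝓞 K)ˣ)).map (unitsK (K := K)) := by
    rw [← AddMonoidHom.range_eq_map]
    ext y
    constructor
    · rintro ⟨a, ha, rfl⟩
      exact (mem_units_iff _).mp ((ordT_eq_zero_iff T a).mp ha)
    · intro hy
      have := (mem_units_iff y).mpr hy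
      exact ⟨⟨y, fun q _ σ => this q σ⟩, (ordT_eq_zero_iff T _).mpr this, rfl⟩
  rw [← AddSubgroup.relIndex_map_map_of_injective _ _ (tUnits K T).subtype_injective, hR, e2,
    AddSubgroup.relIndex_map_map_of_injective _ _ unitsK_injective,
    AddSubgroup.relIndex_top_right]
  exact hS

variable {p : ℕ} [hp : Fact p.Prime] {ζ : QBar}

/-! ### Complex conjugation and the character -/

omit [FiniteDimensional ℚ ↥K] [Normal ℚ ↥K] in
/-- Complex conjugation on a field with a primitive `p`-th root of unity: an involution inverting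
it. -/
private theorem exists_complexConj [NumberField K] [IsGalois ℚ K] (hζK : ζ ∈ K)
    (hζ' : IsPrimitiveRoot (⟨ζ, hζK⟩ : K) p) (h2 : 2 < p) :
    ∃ (φ : K →+* ℂ) (c : K ≃ₐ[ℚ] K), NumberField.ComplexEmbedding.IsConj φ c ∧
      c ⟨ζ, hζK⟩ = (⟨ζ, hζK⟩ : K)⁻¹ ∧ c ≠ 1 ∧ c * c = 1 ∧ orderOf c = 2 := by
  obtain ⟨φ⟩ : Nonempty (K →+* ℂ) := inferInstance
  obtain ⟨c₀, hc₀⟩ := NumberField.ComplexEmbedding.exists_comp_symm_eq_of_comp_eq (k := ℚ) φ
    (NumberField.ComplexEmbedding.conjugate φ) (RingHom.ext_rat _ _)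
  have hc : NumberField.ComplexEmbedding.IsConj φ c₀.symm := hc₀.symm
  set c := c₀.symm
  have hcζ : c ⟨ζ, hζK⟩ = (⟨ζ, hζK⟩ : K)⁻¹ := by
    refine φ.injective ?_
    rw [hc.eq, map_inv₀, Complex.inv_eq_conj]
    · rfl
    · exact Complex.norm_eq_one_of_pow_eq_one (by rw [← map_pow, hζ'.pow_eq_one, map_one])
        hp.out.ne_zero
  have hne : c ≠ 1 := fun h => by
    rw [h, AlgEquiv.one_apply] at hcζ
    have : (⟨ζ, hζK⟩ : K) ^ 2 = 1 := by
      rw [pow_two]
      nth_rewrite 2 [hcζ]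
      exact mul_inv_cancel₀ (hζ'.ne_zero hp.out.ne_zero)
    exact absurd (Nat.le_of_dvd two_pos (hζ'.dvd_of_pow_eq_one 2 this)) (by omega)
  have hcc := conj_mul_self hc
  have hord : orderOf c = 2 := orderOf_eq_prime (by rw [pow_two, hcc]) hne
  exact ⟨φ, c, hc, hcζ, hne, hcc, hord⟩

/-- A complex conjugation and the character of the `T`-units. -/
theorem exists_conj_unitChar (hp2 : p ≠ 2) (hζ : IsPrimitiveRoot ζ p) (hζK : ζ ∈ K)
    (T : Finset Nat.Primes) :
    ∃ (c₀ : K ≃ₐ[ℚ] K) (_ : Fintype (Subgroup.zpowers c₀)), c₀ * c₀ = 1 ∧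
      Nat.card (Subgroup.zpowers c₀) = 2 ∧ c₀ ⟨ζ, hζK⟩ = (⟨ζ, hζK⟩ : K)⁻¹ ∧
      UnitChar p (fun i : T => decomp K i) (Subgroup.zpowers c₀) (tUnits K T) := by
  classical
  have : NumberField K := ⟨⟩
  have : IsGalois ℚ K := ⟨⟩
  have hζ' : IsPrimitiveRoot (⟨ζ, hζK⟩ : K) p :=
    IsPrimitiveRoot.of_map_of_injective (f := K.val) hζ K.val.injective
  have h2 : 2 < p := lt_of_le_of_ne hp.out.two_le hp2.symm
  have hr0 := NumberField.InfinitePlace.IsPrimitiveRoot.nrRealPlaces_eq_zero_of_two_lt h2 hζ'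
  obtain ⟨φ, c, hc, hcζ, hne, hcc, hord⟩ := exists_complexConj hζK hζ' h2
  set C := Subgroup.zpowers c
  have : Fintype C := Fintype.ofFinite _
  have hcard : Nat.card C = 2 := by rw [Nat.card_zpowers, hord]
  obtain ⟨ε, hεN, hεrel⟩ := exists_minkowski φ c hc hne
  -- the map from the regular lattice of `G / c`
  let Φ₀ := conjSum C (Additive.ofMul ε)
  let Φ : CoInd C (TrivZ C) →+ tUnits K T := (unitsK.comp Φ₀).codRestrict (tUnits K T)
    fun F q _ σ => (mem_units_iff _).mpr ⟨_, rfl⟩ q σ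
  have hΦ : ∀ (g : K ≃ₐ[ℚ] K) F, Φ (g • F) = g • Φ F := fun g F => Subtype.ext (by
    rw [coe_smul_tUnits]
    exact conjSum_smul C _ g F)
  have hker₀ : ∀ F, Φ₀ F = 0 ↔ F ∈ (constCoInd C).range := fun F =>
    ⟨mem_constCoInd_of_conjSum_eq_zero φ hεrel, fun ⟨n, hn⟩ => hn ▸ conjSum_constCoInd C hεN n⟩
  have hker : Φ.ker = (constCoInd C).range := by
    ext F
    rw [← hker₀, ← map_eq_zero_iff _ unitsK_injective, AddMonoidHom.mem_ker, Subtype.ext_iff]
    rfl
  have hidx : Φ.range.relIndex (ordT T).ker ≠ 0 :=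
    relIndex_ker_ordT_ne_zero T (S := Φ₀.range)
      (by rw [AddMonoidHom.map_range, AddMonoidHom.map_range]; rfl)
      (index_range_conjSum_ne_zero hr0 hcard hker₀)
  exact ⟨c, inferInstance, hcc, hcard, hcζ, unitChar_of_maps _ C (modPFinite_tUnits hp2 hζ hζK)
    (ordT T) (ordT_smul T) (index_ordT_range T) Φ hΦ hker
    (fun F => (ordT_eq_zero_iff T _).mpr ((mem_units_iff _).mpr ⟨Φ₀ F, rfl⟩)) hidx⟩

end Fermat.Agent.CFT.TUnit
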